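import Fermat.Agent.S55.Local.H593.CycCocycleA4a

/-!
# S55, layer L, piece A4d: pull-back of the standard cyclic 2-cocycle

Deliverable: `Fermat.Agent.S55.Local.H593.cycCocycle_pullback :
  Fermat.Agent.S55.Local.CycCocyclePullbackStatement`.
-/

set_option autoImplicit false

namespace Fermat.Agent.S55.Local.H593

open groupCohomology Fermat.Agent.S55.Local

/-- Discrete logarithms along an injective homomorphism `ρ : H → G` of finite cyclic groups with
`ρ τ = σ ^ (|G| / |H|)`: `cycIdx σ (ρ a) = (|G| / |H|) * cycIdx τ a`. -/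
lemma cycIdx_map {G H : Type} [Group G] [Finite G] [Group H] [Finite H] {σ : G} {τ : H}
    (ρ : H →* G) (hσ : ∀ g, g ∈ Subgroup.zpowers σ) (hτ : ∀ h, h ∈ Subgroup.zpowers τ)
    (hinj : Function.Injective ρ) (hρ : ρ τ = σ ^ (Nat.card G / Nat.card H)) (a : H) :
    cycIdx σ (ρ a) = Nat.card G / Nat.card H * cycIdx τ a := by
  have hdvd : Nat.card H ∣ Nat.card G := Subgroup.card_dvd_of_injective ρ hinj
  have hHpos : 0 < Nat.card H := Nat.card_pos
  have hlt : cycIdx τ a < Nat.card H := cycIdx_lt_card hτ a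
  have h1 : ρ a = σ ^ (Nat.card G / Nat.card H * cycIdx τ a) := by
    conv_lhs => rw [← pow_cycIdx hτ a]
    rw [map_pow, hρ, ← pow_mul]
  rw [h1, cycIdx_pow hσ]
  apply Nat.mod_eq_of_lt
  calc Nat.card G / Nat.card H * cycIdx τ a
      < Nat.card G / Nat.card H * Nat.card H := by
        apply Nat.mul_lt_mul_of_pos_left hlt
        exact Nat.div_pos (Nat.le_of_dvd Nat.card_pos hdvd) hHpos
    _ = Nat.card G := Nat.div_mul_cancel hdvd

/-- **(A4d)** Functoriality of the standard cyclic cocycle under an injective homomorphism of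
cyclic groups. -/
theorem cycCocycle_pullback : CycCocyclePullbackStatement := by
  intro G H M _ _ _ _ _ σ τ ρ hσ hτ hinj hρ x p
  have hdvd : Nat.card H ∣ Nat.card G := Subgroup.card_dvd_of_injective ρ hinj
  have hHpos : 0 < Nat.card H := Nat.card_pos
  have hdpos : 0 < Nat.card G / Nat.card H :=
    Nat.div_pos (Nat.le_of_dvd Nat.card_pos hdvd) hHpos
  simp only [cycCocycle]
  rw [cycIdx_map ρ hσ hτ hinj hρ, cycIdx_map ρ hσ hτ hinj hρ, ← Nat.mul_add]
  congr 1
  have hn : Nat.card G = Nat.card G / Nat.card H * Nat.card H := (Nat.div_mul_cancel hdvd).symm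
  generalize Nat.card G / Nat.card H = d at hn hdpos ⊢
  rw [hn]
  exact Nat.mul_div_mul_left _ _ hdpos

end Fermat.Agent.S55.Local.H593
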