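import Fermat.Agent.S55.Local.Spec

/-!
# S55, layer L, piece A4a: the standard cyclic 2-cocycle is a 2-cocycle

Deliverable: `Fermat.Agent.S55.Local.H593.cycCocycle_isMulCocycle₂ :
  Fermat.Agent.S55.Local.CycCocycleIsCocycleStatement`.

Also exported (useful for A4b / A4c / A4d): basic API for the discrete logarithm `cycIdx`.
-/

set_option autoImplicit false

namespace Fermat.Agent.S55.Local.H593

open groupCohomology Fermat.Agent.S55.Local

section Idx

variable {G : Type} [Group G]

/-- If `g` is a power of `σ` (natural exponent), then `σ ^ cycIdx σ g = g`. -/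
lemma pow_cycIdx_of_exists {σ g : G} (h : ∃ k : ℕ, σ ^ k = g) : σ ^ cycIdx σ g = g :=
  Nat.sInf_mem (s := {k : ℕ | σ ^ k = g}) h

/-- `cycIdx σ g` is the least exponent. -/
lemma cycIdx_le {σ g : G} {k : ℕ} (h : σ ^ k = g) : cycIdx σ g ≤ k :=
  Nat.sInf_le (s := {k : ℕ | σ ^ k = g}) h

variable [Finite G]

/-- In a finite group, every element of `zpowers σ` is a natural power of `σ`. -/
lemma exists_pow_eq_of_mem_zpowers {σ g : G} (hg : g ∈ Subgroup.zpowers σ) :
    ∃ k : ℕ, σ ^ k = g := by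
  have h := (mem_powers_iff_mem_zpowers (x := σ) (y := g)).2 hg
  exact Submonoid.mem_powers_iff _ _ |>.1 h

omit [Finite G] in
/-- If `σ` generates the group `G`, then `orderOf σ = Nat.card G`. -/
lemma orderOf_eq_card_of_gen {σ : G} (hσ : ∀ g, g ∈ Subgroup.zpowers σ) :
    orderOf σ = Nat.card G :=
  orderOf_eq_card_of_forall_mem_zpowers hσ

lemma pow_cycIdx {σ : G} (hσ : ∀ g, g ∈ Subgroup.zpowers σ) (g : G) : σ ^ cycIdx σ g = g :=
  pow_cycIdx_of_exists (exists_pow_eq_of_mem_zpowers (hσ g))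

lemma cycIdx_lt_card {σ : G} (hσ : ∀ g, g ∈ Subgroup.zpowers σ) (g : G) :
    cycIdx σ g < Nat.card G := by
  have hn : 0 < orderOf σ := orderOf_pos σ
  have h1 : σ ^ (cycIdx σ g % orderOf σ) = g := by
    rw [pow_mod_orderOf, pow_cycIdx hσ g]
  have h2 : cycIdx σ g ≤ cycIdx σ g % orderOf σ := cycIdx_le h1
  have h3 : cycIdx σ g % orderOf σ < orderOf σ := Nat.mod_lt _ hn
  rw [← orderOf_eq_card_of_gen hσ]
  omega

/-- The discrete logarithm of `σ ^ k` is `k % n`. -/
lemma cycIdx_pow {σ : G} (hσ : ∀ g, g ∈ Subgroup.zpowers σ) (k : ℕ) :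
    cycIdx σ (σ ^ k) = k % Nat.card G := by
  have hn : orderOf σ = Nat.card G := orderOf_eq_card_of_gen hσ
  have h1 : σ ^ cycIdx σ (σ ^ k) = σ ^ k := pow_cycIdx hσ _
  have h2 := (pow_eq_pow_iff_modEq (x := σ)).1 h1
  rw [hn] at h2
  have h3 : cycIdx σ (σ ^ k) < Nat.card G := cycIdx_lt_card hσ _
  have h4 : cycIdx σ (σ ^ k) % Nat.card G = k % Nat.card G := h2
  rw [Nat.mod_eq_of_lt h3] at h4
  exact h4

/-- Additivity of the discrete logarithm modulo `n`. -/
lemma cycIdx_mul {σ : G} (hσ : ∀ g, g ∈ Subgroup.zpowers σ) (g h : G) :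
    cycIdx σ (g * h) = (cycIdx σ g + cycIdx σ h) % Nat.card G := by
  have : g * h = σ ^ (cycIdx σ g + cycIdx σ h) := by
    rw [pow_add, pow_cycIdx hσ g, pow_cycIdx hσ h]
  rw [this, cycIdx_pow hσ]

omit [Finite G] in
lemma cycIdx_one (σ : G) : cycIdx σ (1 : G) = 0 := by
  have h : σ ^ 0 = (1 : G) := pow_zero σ
  exact Nat.le_zero.1 (cycIdx_le h)

/-- The carry formula: `i(g) + i(h) = i(gh) + n * ⌊(i(g) + i(h)) / n⌋`. -/
lemma cycIdx_add_eq {σ : G} (hσ : ∀ g, g ∈ Subgroup.zpowers σ) (g h : G) :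
    cycIdx σ g + cycIdx σ h =
      cycIdx σ (g * h) + Nat.card G * ((cycIdx σ g + cycIdx σ h) / Nat.card G) := by
  rw [cycIdx_mul hσ]
  exact (Nat.mod_add_div _ _).symm

end Idx

section Action

variable {G M : Type} [Group G] [CommGroup M] [MulDistribMulAction G M]

/-- An element fixed by a generator is fixed by the whole group. -/
lemma smul_eq_of_gen {σ : G} (hσ : ∀ g, g ∈ Subgroup.zpowers σ) {x : M} (hx : σ • x = x)
    (g : G) : g • x = x := by
  have hmem : g ∈ MulAction.stabilizer G x := by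
    have hle : Subgroup.zpowers σ ≤ MulAction.stabilizer G x := by
      rw [Subgroup.zpowers_le]
      exact hx
    exact hle (hσ g)
  exact hmem

end Action

/-- A purely arithmetic identity behind the cocycle condition. -/
lemma carry_identity (n a b c : ℕ) :
    ((a + b) % n + c) / n + (a + b) / n = (b + c) / n + (a + (b + c) % n) / n := by
  rcases Nat.eq_zero_or_pos n with rfl | hn
  · simp
  · have h1 : ((a + b) % n + c) / n + (a + b) / n = (a + b + c) / n := by
      have : a + b + c = ((a + b) % n + c) + n * ((a + b) / n) := by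
        have := Nat.mod_add_div (a + b) n
        omega
      rw [this, Nat.add_mul_div_left _ _ hn]
    have h2 : (b + c) / n + (a + (b + c) % n) / n = (a + b + c) / n := by
      have : a + b + c = (a + (b + c) % n) + n * ((b + c) / n) := by
        have := Nat.mod_add_div (b + c) n
        omega
      rw [this, Nat.add_mul_div_left _ _ hn]
      ring
    rw [h1, h2]

/-- **(A4a)** The standard cyclic 2-cocycle is a 2-cocycle. -/
theorem cycCocycle_isMulCocycle₂ : CycCocycleIsCocycleStatement := by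
  intro G M _ _ _ _ σ hσ x hx g h j
  have hfix : ∀ (g : G) (k : ℕ), g • (x ^ k) = x ^ k := by
    intro g k
    rw [smul_pow', smul_eq_of_gen hσ hx g]
  simp only [cycCocycle]
  rw [hfix, ← pow_add, ← pow_add, cycIdx_mul hσ g h, cycIdx_mul hσ h j]
  congr 1
  exact carry_identity (Nat.card G) (cycIdx σ g) (cycIdx σ h) (cycIdx σ j)

end Fermat.Agent.S55.Local.H593
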